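import Mathlib

/-!
# Successive approximation for `p`-th roots in a `ϖ`-adically complete ring

`A` is a commutative ring, `ϖ : A`, `A` is `(ϖ)`-adically complete, `p = u ϖ ^ e` with `u` a unit
(`e = 0` allowed).  Main results:

* `taylor_two` : `(a + x) ^ p = a ^ p + p a ^ (p-1) x + c x ^ 2`;
* `exists_limit`, `eq_of_forall_pow_dvd_sub` : completeness / separatedness in divisibility form;
* `exists_pow_eq_of_dvd` : if `a₀ ≡ 1 mod ϖ`, `m ≥ e + 1` and `y ≡ a₀ ^ p mod ϖ ^ (m + e)` then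
  `y = a ^ p` for some `a ≡ a₀ mod ϖ ^ m`;
* `eq_one_of_pow_eq_one` : if `ϖ` is a non-zero-divisor, `a ≡ 1 mod ϖ ^ (e+1)` and `a ^ p = 1`
  then `a = 1`.
-/

namespace Fermat.Agent.S55.H663

variable {A : Type*} [CommRing A]

open Polynomial in
/-- second order Taylor expansion of `x ↦ x ^ p`. -/
lemma taylor_two (p : ℕ) (a x : A) :
    ∃ c : A, (a + x) ^ p = a ^ p + p * a ^ (p - 1) * x + c * x ^ 2 := by
  obtain ⟨k, hk⟩ := Polynomial.binomExpansion (X ^ p : A[X]) a x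
  refine ⟨k, ?_⟩
  simpa [Polynomial.derivative_X_pow] using hk

section Complete

variable (ϖ : A) [IsAdicComplete (Ideal.span {ϖ}) A]

omit [IsAdicComplete (Ideal.span {ϖ}) A] in
lemma mem_span_pow_smul_top_iff (n : ℕ) (x : A) :
    x ∈ (Ideal.span {ϖ} ^ n • ⊤ : Submodule A A) ↔ ϖ ^ n ∣ x := by
  rw [smul_eq_mul, Ideal.mul_top, Ideal.span_singleton_pow, Ideal.mem_span_singleton]

/-- separatedness in divisibility form. -/
lemma eq_of_forall_pow_dvd_sub {x y : A} (h : ∀ n, ϖ ^ n ∣ x - y) : x = y := by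
  have hH : IsHausdorff (Ideal.span {ϖ}) A := inferInstance
  have := hH.haus (x - y) (fun n => by
    rw [SModEq.sub_mem, sub_zero, mem_span_pow_smul_top_iff]
    exact h n)
  exact sub_eq_zero.1 this

/-- completeness in divisibility form. -/
lemma exists_limit (f : ℕ → A) (hf : ∀ n, ϖ ^ n ∣ f (n + 1) - f n) :
    ∃ L, ∀ n, ϖ ^ n ∣ f n - L := by
  have hP : IsPrecomplete (Ideal.span {ϖ}) A := inferInstance
  have key : ∀ m k, ϖ ^ m ∣ f (m + k) - f m := by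
    intro m k
    induction k with
    | zero => simp
    | succ k ih =>
      have h1 : ϖ ^ m ∣ f (m + k + 1) - f (m + k) :=
        (pow_dvd_pow ϖ (Nat.le_add_right m k)).trans (hf (m + k))
      have : f (m + (k + 1)) - f m = (f (m + k + 1) - f (m + k)) + (f (m + k) - f m) := by
        rw [← add_assoc]; ring
      rw [this]
      exact dvd_add h1 ih
  obtain ⟨L, hL⟩ := hP.prec (f := f) (by
    intro m n hmn
    rw [SModEq.sub_mem, mem_span_pow_smul_top_iff]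
    obtain ⟨k, rfl⟩ := Nat.exists_eq_add_of_le hmn
    have := key m k
    rw [← neg_sub]
    exact (dvd_neg).2 this)
  refine ⟨L, fun n => ?_⟩
  have := hL n
  rwa [SModEq.sub_mem, mem_span_pow_smul_top_iff] at this

lemma isUnit_of_dvd_sub_one {a : A} (h : ϖ ∣ a - 1) : IsUnit a := by
  apply Ideal.isUnit_of_sub_one_mem_jacobson_bot
  apply IsAdicComplete.le_jacobson_bot (Ideal.span {ϖ})
  exact Ideal.mem_span_singleton.2 h

variable {ϖ}

omit [IsAdicComplete (Ideal.span {ϖ}) A] in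
/-- one improvement step. -/
lemma exists_improve {p e : ℕ} {u : Aˣ} (hp : (p : A) = u * ϖ ^ e) {k : ℕ} (hk : e + 1 ≤ k)
    {y a : A} (ha : ϖ ∣ a - 1) (hy : ϖ ^ (k + e) ∣ y - a ^ p) :
    ∃ a', ϖ ^ k ∣ a' - a ∧ ϖ ^ (k + e + 1) ∣ y - a' ^ p := by
  obtain ⟨t, ht⟩ := hy
  obtain ⟨c, hc⟩ := taylor_two p a (ϖ ^ k * ((u⁻¹ : Aˣ) * t))
  refine ⟨a + ϖ ^ k * ((u⁻¹ : Aˣ) * t), ⟨(u⁻¹ : Aˣ) * t, by ring⟩, ?_⟩
  have h1 : ϖ ∣ 1 - a ^ (p - 1) := by
    have h2 : a - 1 ∣ a ^ (p - 1) - 1 := by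
      simpa using sub_dvd_pow_sub_pow a 1 (p - 1)
    have := ha.trans h2
    rw [← neg_sub]
    exact (dvd_neg).2 this
  obtain ⟨w, hw⟩ := h1
  have huu : (u : A) * ((u⁻¹ : Aˣ) : A) = 1 := by simp
  obtain ⟨j, hj⟩ := Nat.exists_eq_add_of_le hk
  have e1 : y - (a + ϖ ^ k * ((u⁻¹ : Aˣ) * t)) ^ p =
      ϖ ^ (k + e) * t * (1 - a ^ (p - 1)) * (u * ((u⁻¹ : Aˣ) : A))
        + ϖ ^ (k + e) * t * (1 - u * ((u⁻¹ : Aˣ) : A))
        - c * (ϖ ^ k * ((u⁻¹ : Aˣ) * t)) ^ 2 := by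
    rw [hc, hp]
    have : y = a ^ p + ϖ ^ (k + e) * t := by rw [← ht]; ring
    rw [this, pow_add]
    ring
  rw [e1, huu, sub_self, mul_zero, add_zero, mul_one, hw]
  refine dvd_sub ⟨t * w, by rw [pow_succ]; ring⟩ ?_
  have : (ϖ ^ k * ((u⁻¹ : Aˣ) * t)) ^ 2 = ϖ ^ (k + e + 1) * (ϖ ^ j * ((u⁻¹ : Aˣ) * t) ^ 2) := by
    rw [mul_pow, ← pow_mul, ← mul_assoc, ← pow_add]
    congr 2
    omega
  rw [this]
  exact Dvd.dvd.mul_left (dvd_mul_right _ _) c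

open Classical in
variable (ϖ) in
/-- the approximating sequence for a `p`-th root of `y` starting at `a₀`. -/
noncomputable def approxSeq (p e m : ℕ) (y a₀ : A) : ℕ → A
  | 0 => a₀
  | n + 1 =>
    if h : ∃ a', ϖ ^ (m + n) ∣ a' - approxSeq p e m y a₀ n ∧ ϖ ^ (m + n + e + 1) ∣ y - a' ^ p
    then h.choose else approxSeq p e m y a₀ n

omit [IsAdicComplete (Ideal.span {ϖ}) A] in
lemma approxSeq_spec {p e : ℕ} {u : Aˣ} (hp : (p : A) = u * ϖ ^ e) {m : ℕ} (hm : e + 1 ≤ m)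
    {y a₀ : A} (ha₀ : ϖ ∣ a₀ - 1) (hy : ϖ ^ (m + e) ∣ y - a₀ ^ p) (n : ℕ) :
    ϖ ∣ approxSeq ϖ p e m y a₀ n - 1 ∧ ϖ ^ (m + n + e) ∣ y - approxSeq ϖ p e m y a₀ n ^ p ∧
      ϖ ^ (m + n) ∣ approxSeq ϖ p e m y a₀ (n + 1) - approxSeq ϖ p e m y a₀ n := by
  have step : ∀ n, (ϖ ∣ approxSeq ϖ p e m y a₀ n - 1 ∧
      ϖ ^ (m + n + e) ∣ y - approxSeq ϖ p e m y a₀ n ^ p) →
      (ϖ ^ (m + n) ∣ approxSeq ϖ p e m y a₀ (n + 1) - approxSeq ϖ p e m y a₀ n ∧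
        ϖ ^ (m + n + e + 1) ∣ y - approxSeq ϖ p e m y a₀ (n + 1) ^ p) := by
    intro n hn
    have hex : ∃ a', ϖ ^ (m + n) ∣ a' - approxSeq ϖ p e m y a₀ n ∧
        ϖ ^ (m + n + e + 1) ∣ y - a' ^ p :=
      exists_improve hp (by omega) hn.1 hn.2
    have : approxSeq ϖ p e m y a₀ (n + 1) = hex.choose := by
      rw [approxSeq, dif_pos hex]
    rw [this]
    exact hex.choose_spec
  have inv : ∀ n, ϖ ∣ approxSeq ϖ p e m y a₀ n - 1 ∧
      ϖ ^ (m + n + e) ∣ y - approxSeq ϖ p e m y a₀ n ^ p := by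
    intro n
    induction n with
    | zero => exact ⟨ha₀, by simpa [approxSeq] using hy⟩
    | succ n ih =>
      obtain ⟨h1, h2⟩ := step n ih
      refine ⟨?_, ?_⟩
      · have h3 : ϖ ∣ approxSeq ϖ p e m y a₀ (n + 1) - approxSeq ϖ p e m y a₀ n :=
          (dvd_pow_self ϖ (by omega)).trans h1
        have := dvd_add h3 ih.1
        simpa using this
      · have : m + (n + 1) + e = m + n + e + 1 := by omega
        rw [this]; exact h2
  exact ⟨(inv n).1, (inv n).2, (step n (inv n)).1⟩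

/-- **Successive approximation**: `p = u ϖ ^ e`, `m ≥ e + 1`, `a₀ ≡ 1 mod ϖ`,
`y ≡ a₀ ^ p mod ϖ ^ (m + e)`.  Then `y` is the `p`-th power of some `a ≡ a₀ mod ϖ ^ m`. -/
theorem exists_pow_eq_of_dvd {p e : ℕ} {u : Aˣ} (hp : (p : A) = u * ϖ ^ e) {m : ℕ}
    (hm : e + 1 ≤ m) {y a₀ : A} (ha₀ : ϖ ∣ a₀ - 1) (hy : ϖ ^ (m + e) ∣ y - a₀ ^ p) :
    ∃ a, ϖ ^ m ∣ a - a₀ ∧ a ^ p = y := by
  set f := approxSeq ϖ p e m y a₀ with hf
  have hspec := approxSeq_spec hp hm ha₀ hy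
  obtain ⟨L, hL⟩ := exists_limit ϖ f (fun n =>
    (pow_dvd_pow ϖ (Nat.le_add_left n m)).trans (hspec n).2.2)
  have h0 : ∀ n, ϖ ^ m ∣ f n - a₀ := by
    intro n
    induction n with
    | zero => simp [hf, approxSeq]
    | succ n ih =>
      have h1 : ϖ ^ m ∣ f (n + 1) - f n :=
        (pow_dvd_pow ϖ (Nat.le_add_right m n)).trans (hspec n).2.2
      have := dvd_add h1 ih
      simpa using this
  refine ⟨L, ?_, ?_⟩
  · have h1 : ϖ ^ m ∣ L - f m := by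
      rw [← neg_sub]; exact (dvd_neg).2 (hL m)
    have := dvd_add h1 (h0 m)
    simpa using this
  · apply eq_of_forall_pow_dvd_sub ϖ
    intro n
    have h1 : ϖ ^ n ∣ L ^ p - f n ^ p := by
      have h2 : ϖ ^ n ∣ L - f n := by
        rw [← neg_sub]; exact (dvd_neg).2 (hL n)
      exact h2.trans (sub_dvd_pow_sub_pow L (f n) p)
    have h3 : ϖ ^ n ∣ f n ^ p - y := by
      rw [← neg_sub]
      exact (dvd_neg).2 ((pow_dvd_pow ϖ (by omega)).trans (hspec n).2.1)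
    have := dvd_add h1 h3
    simpa using this

omit [IsAdicComplete (Ideal.span {ϖ}) A] in
/-- `p`-power is injective on `1 + ϖ ^ (e+1) A` when `ϖ` is a non-zero-divisor and
`1 + ϖ A ⊆ Aˣ`. -/
theorem eq_one_of_pow_eq_one (hϖ : ϖ ∈ nonZeroDivisors A)
    (hunit : ∀ a : A, ϖ ∣ a - 1 → IsUnit a)
    {p e : ℕ} {u : Aˣ} (hp : (p : A) = u * ϖ ^ e)
    {a : A} (ha : ϖ ^ (e + 1) ∣ a - 1) (hap : a ^ p = 1) : a = 1 := by
  obtain ⟨z, hz⟩ := ha
  obtain ⟨c, hc⟩ := taylor_two p 1 (a - 1)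
  rw [add_sub_cancel, hap, one_pow, one_pow, mul_one] at hc
  -- 0 = (a - 1) * (p + c (a - 1)) = (a-1) * ϖ^e * (u + c ϖ z)
  have hw : IsUnit ((u : A) * (1 + ϖ * (((u⁻¹ : Aˣ) : A) * c * z))) :=
    u.isUnit.mul (hunit _ ⟨((u⁻¹ : Aˣ) : A) * c * z, by ring⟩)
  have huu : (u : A) * ((u⁻¹ : Aˣ) : A) = 1 := by simp
  have h0 : (a - 1) * (ϖ ^ e * ((u : A) * (1 + ϖ * (((u⁻¹ : Aˣ) : A) * c * z)))) = 0 := by
    have h1 : (a - 1) * (ϖ ^ e * ((u : A) * (1 + ϖ * (((u⁻¹ : Aˣ) : A) * c * z)))) =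
        (u * ϖ ^ e) * (a - 1) + c * (a - 1) * (ϖ ^ (e + 1) * z) * (u * ((u⁻¹ : Aˣ) : A)) := by
      rw [pow_succ]; ring
    rw [h1, huu, mul_one, ← hz, ← hp]
    have h2 : (1 : A) + (p * (a - 1) + c * (a - 1) * (a - 1)) = 1 + 0 := by
      rw [add_zero]
      have : (1 : A) + (p * (a - 1) + c * (a - 1) * (a - 1)) =
          1 + p * (a - 1) + c * (a - 1) ^ 2 := by ring
      rw [this]
      exact hc.symm
    exact add_left_cancel h2
  have h3 : (a - 1) * ϖ ^ e = 0 := by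
    have := hw.mul_left_eq_zero.1 (by rw [← mul_assoc] at h0; exact h0)
    exact this
  have h4 : a - 1 = 0 := (pow_mem hϖ e).2 _ h3
  exact sub_eq_zero.1 h4

end Complete

end Fermat.Agent.S55.H663
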