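import Fermat.Agent.S55.H663.Approx

/-!
# The index of `n`-th powers in the unit group of a complete ring (local `p`-th power index)

`A` commutative ring, `ϖ : A` a non-zero-divisor, `A` is `(ϖ)`-adically complete, `A ⧸ (ϖ)` finite,
`n = u ϖ ^ e` in `A` with `u` a unit, `0 < n`.  Then

  `[Aˣ : (Aˣ) ^ n] = |A ⧸ (n)| * |μ_n(A)|`      (`index_pow_units`)

and all three numbers are finite and non-zero.  For a complete discrete valuation ring with finite
residue field and `n = p` prime this is the classical formula `[U : U^p] = |μ_p| · q^e`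
(no logarithm is used: `x ↦ x ^ n` maps `1 + ϖ^m A` isomorphically onto `1 + ϖ^(m+e) A`
for `m = e + 1`).
-/

namespace Fermat.Agent.S55.H663

section Group

variable {G : Type*} [CommGroup G]

/-- index bookkeeping (Herbrand quotient of the pair `(φ, 1)` in disguise). -/
lemma index_range_mul_index (φ : G →* G) (V : Subgroup G) (hV : V.index ≠ 0)
    (hinj : ∀ x ∈ V, φ x = 1 → x = 1) :
    φ.range.index * V.index = (V.map φ).index * Nat.card φ.ker ∧ Nat.card φ.ker ≠ 0 := by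
  have h1 : (V.map φ).index = (V ⊔ φ.ker).index * φ.range.index := Subgroup.index_map V φ
  have h2 : V.relIndex (V ⊔ φ.ker) * (V ⊔ φ.ker).index = V.index :=
    Subgroup.relIndex_mul_index le_sup_left
  have h3 : V.relIndex (V ⊔ φ.ker) = Nat.card φ.ker := by
    rw [Subgroup.relIndex_sup_left, ← Subgroup.inf_relIndex_right]
    have : V ⊓ φ.ker = ⊥ := by
      rw [eq_bot_iff]
      rintro x ⟨hx, hk⟩
      exact hinj x hx hk
    rw [this, Subgroup.relIndex_bot_left]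
  rw [h3] at h2
  refine ⟨?_, ?_⟩
  · rw [h1, ← h2]; ring
  · intro h0
    rw [h0, zero_mul] at h2
    exact hV h2.symm

lemma index_range_eq (φ : G →* G) (V : Subgroup G) (hV : V.index ≠ 0)
    (hinj : ∀ x ∈ V, φ x = 1 → x = 1) (hle : V.map φ ≤ V) :
    φ.range.index = (V.map φ).relIndex V * Nat.card φ.ker ∧ Nat.card φ.ker ≠ 0 := by
  obtain ⟨h1, h2⟩ := index_range_mul_index φ V hV hinj
  refine ⟨?_, h2⟩
  rw [← Subgroup.relIndex_mul_index hle] at h1
  have : φ.range.index * V.index = ((V.map φ).relIndex V * Nat.card φ.ker) * V.index := by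
    rw [h1]; ring
  exact Nat.eq_of_mul_eq_mul_right (Nat.pos_of_ne_zero hV) this

end Group

variable {A : Type*} [CommRing A] (ϖ : A)

/-- the principal congruence subgroup `{x ∈ Aˣ | x ≡ 1 mod ϖ ^ n}`. -/
def congrUnits (n : ℕ) : Subgroup Aˣ :=
  (Units.map (Ideal.Quotient.mk (Ideal.span {ϖ ^ n})).toMonoidHom).ker

lemma mem_congrUnits {n : ℕ} {x : Aˣ} : x ∈ congrUnits ϖ n ↔ ϖ ^ n ∣ (x : A) - 1 := by
  rw [congrUnits, MonoidHom.mem_ker, Units.ext_iff]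
  simp only [Units.coe_map, RingHom.toMonoidHom_eq_coe, MonoidHom.coe_coe, Units.val_one]
  rw [← map_one (Ideal.Quotient.mk (Ideal.span {ϖ ^ n})), Ideal.Quotient.mk_eq_mk_iff_sub_mem,
    Ideal.mem_span_singleton]

lemma congrUnits_anti {m n : ℕ} (h : m ≤ n) : congrUnits ϖ n ≤ congrUnits ϖ m := by
  intro x hx
  rw [mem_congrUnits] at hx ⊢
  exact (pow_dvd_pow ϖ h).trans hx

lemma congrUnits_index_ne_zero [Finite (A ⧸ Ideal.span {ϖ})] (n : ℕ) :
    (congrUnits ϖ n).index ≠ 0 := by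
  have hfin : Finite (A ⧸ Ideal.span {ϖ ^ n}) := by
    rw [← Ideal.span_singleton_pow]
    exact Ideal.finite_quotient_pow ⟨{ϖ}, by simp⟩ n
  have : Finite (A ⧸ Ideal.span {ϖ ^ n})ˣ := inferInstance
  rw [congrUnits, Subgroup.index_ker]
  exact Nat.card_pos.ne'

section Main

variable {ϖ}
variable [IsAdicComplete (Ideal.span {ϖ}) A]

/-- the unit `1 + ϖ ^ m * z` (`m ≥ 1`). -/
noncomputable def oneAddUnit (ϖ : A) [IsAdicComplete (Ideal.span {ϖ}) A] (m : ℕ) (hm : 1 ≤ m)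
    (z : A) : Aˣ :=
  (isUnit_of_dvd_sub_one ϖ (a := 1 + ϖ ^ m * z)
    ⟨ϖ ^ (m - 1) * z, by
      have : ϖ ^ m = ϖ * ϖ ^ (m - 1) := by
        rw [← pow_succ', Nat.sub_add_cancel hm]
      rw [this]; ring⟩).unit

@[simp] lemma coe_oneAddUnit (m : ℕ) (hm : 1 ≤ m) (z : A) :
    ((oneAddUnit ϖ m hm z : Aˣ) : A) = 1 + ϖ ^ m * z := rfl

lemma oneAddUnit_mem (m : ℕ) (hm : 1 ≤ m) (z : A) : oneAddUnit ϖ m hm z ∈ congrUnits ϖ m := by
  rw [mem_congrUnits, coe_oneAddUnit]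
  exact ⟨z, by ring⟩

/-- `x ↦ x ^ n` maps `1 + ϖ^(e+1) A` onto `1 + ϖ^(2e+1) A`. -/
lemma map_pow_congrUnits {n e : ℕ} {u : Aˣ} (hn : (n : A) = u * ϖ ^ e) :
    (congrUnits ϖ (e + 1)).map (powMonoidHom n : Aˣ →* Aˣ) = congrUnits ϖ (e + 1 + e) := by
  apply le_antisymm
  · rintro _ ⟨x, hx, rfl⟩
    rw [SetLike.mem_coe, mem_congrUnits] at hx
    rw [mem_congrUnits, powMonoidHom_apply, Units.val_pow_eq_pow_val]
    obtain ⟨z, hz⟩ := hx
    obtain ⟨c, hc⟩ := taylor_two n 1 ((x : A) - 1)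
    rw [add_sub_cancel, one_pow, one_pow, mul_one] at hc
    rw [hc, hz, hn]
    refine ⟨u * z + c * ϖ * z ^ 2, ?_⟩
    rw [pow_add, pow_succ]
    ring
  · intro y hy
    rw [mem_congrUnits] at hy
    obtain ⟨a, ha, hay⟩ := exists_pow_eq_of_dvd (ϖ := ϖ) hn (m := e + 1) le_rfl
      (y := (y : A)) (a₀ := 1) (by simp) (by simpa using hy)
    have hau : IsUnit a := isUnit_of_dvd_sub_one ϖ ((dvd_pow_self ϖ (by omega)).trans ha)
    refine ⟨hau.unit, ?_, ?_⟩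
    · rw [SetLike.mem_coe, mem_congrUnits]
      exact ha
    · ext
      rw [powMonoidHom_apply, Units.val_pow_eq_pow_val]
      exact hay

lemma pow_injOn_congrUnits (hϖ : ϖ ∈ nonZeroDivisors A) {n e : ℕ} {u : Aˣ}
    (hn : (n : A) = u * ϖ ^ e) :
    ∀ x ∈ congrUnits ϖ (e + 1), (powMonoidHom n : Aˣ →* Aˣ) x = 1 → x = 1 := by
  intro x hx h1
  rw [mem_congrUnits] at hx
  ext
  refine eq_one_of_pow_eq_one hϖ (fun a ha => isUnit_of_dvd_sub_one ϖ ha) hn hx ?_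
  have := congrArg Units.val h1
  simpa using this

end Main

section RelIndex

variable {ϖ}

/-- the coordinate `z` of `x = 1 + ϖ ^ m z ∈ congrUnits ϖ m`. -/
noncomputable def quotCoord (ϖ : A) (m : ℕ) (x : congrUnits ϖ m) : A :=
  ((mem_congrUnits ϖ).1 x.2).choose

lemma quotCoord_spec (m : ℕ) (x : congrUnits ϖ m) :
    ((x : Aˣ) : A) - 1 = ϖ ^ m * quotCoord ϖ m x :=
  ((mem_congrUnits ϖ).1 x.2).choose_spec

lemma quotCoord_unique (hϖ : ϖ ∈ nonZeroDivisors A) {m : ℕ} {x : congrUnits ϖ m} {z : A}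
    (h : ((x : Aˣ) : A) - 1 = ϖ ^ m * z) : quotCoord ϖ m x = z := by
  have h1 := quotCoord_spec m x
  rw [h] at h1
  have h2 : (z - quotCoord ϖ m x) * ϖ ^ m = 0 := by
    rw [sub_mul, mul_comm z, mul_comm (quotCoord ϖ m x), h1, sub_self]
  have := (pow_mem hϖ m).2 _ h2
  exact (sub_eq_zero.1 this).symm

/-- `1 + ϖ^m z ↦ z mod ϖ^e`, a group homomorphism when `e ≤ m`. -/
noncomputable def quotCoordHom (hϖ : ϖ ∈ nonZeroDivisors A) {m e : ℕ} (hem : e ≤ m) :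
    congrUnits ϖ m →* Multiplicative (A ⧸ Ideal.span {ϖ ^ e}) :=
  MonoidHom.mk' (fun x => Multiplicative.ofAdd
      (Ideal.Quotient.mk (Ideal.span {ϖ ^ e}) (quotCoord ϖ m x))) (by
    intro x y
    rw [← ofAdd_add, ← map_add]
    congr 1
    have hx := quotCoord_spec m x
    have hy := quotCoord_spec m y
    have hxy : (((x * y : congrUnits ϖ m) : Aˣ) : A) - 1 =
        ϖ ^ m * (quotCoord ϖ m x + quotCoord ϖ m y + ϖ ^ m * quotCoord ϖ m x * quotCoord ϖ m y) := by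
      have : (((x * y : congrUnits ϖ m) : Aˣ) : A) - 1 =
          (((x : Aˣ) : A) - 1) * (((y : Aˣ) : A) - 1) + (((x : Aˣ) : A) - 1)
            + (((y : Aˣ) : A) - 1) := by
        push_cast; ring
      rw [this, hx, hy]; ring
    rw [quotCoord_unique hϖ hxy, Ideal.Quotient.mk_eq_mk_iff_sub_mem, Ideal.mem_span_singleton]
    obtain ⟨j, rfl⟩ := Nat.exists_eq_add_of_le hem
    exact ⟨ϖ ^ j * quotCoord ϖ (e + j) x * quotCoord ϖ (e + j) y, by rw [pow_add]; ring⟩)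

lemma quotCoordHom_apply (hϖ : ϖ ∈ nonZeroDivisors A) {m e : ℕ} (hem : e ≤ m)
    (x : congrUnits ϖ m) :
    quotCoordHom hϖ hem x = Multiplicative.ofAdd
      (Ideal.Quotient.mk (Ideal.span {ϖ ^ e}) (quotCoord ϖ m x)) := rfl

lemma quotCoordHom_ker (hϖ : ϖ ∈ nonZeroDivisors A) {m e : ℕ} (hem : e ≤ m) :
    (quotCoordHom hϖ hem).ker = (congrUnits ϖ (m + e)).subgroupOf (congrUnits ϖ m) := by
  ext x
  rw [MonoidHom.mem_ker, quotCoordHom_apply, Subgroup.mem_subgroupOf, mem_congrUnits,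
    ← ofAdd_zero, Multiplicative.ofAdd.apply_eq_iff_eq, Ideal.Quotient.eq_zero_iff_mem,
    Ideal.mem_span_singleton, quotCoord_spec m x]
  constructor
  · rintro ⟨w, hw⟩
    exact ⟨w, by rw [hw, pow_add]; ring⟩
  · rintro ⟨w, hw⟩
    refine ⟨w, ?_⟩
    have h2 : (quotCoord ϖ m x - ϖ ^ e * w) * ϖ ^ m = 0 := by
      rw [sub_mul, mul_comm _ (ϖ ^ m), hw, pow_add]; ring
    exact sub_eq_zero.1 ((pow_mem hϖ m).2 _ h2)

lemma quotCoordHom_surjective [IsAdicComplete (Ideal.span {ϖ}) A] (hϖ : ϖ ∈ nonZeroDivisors A)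
    {m e : ℕ} (hem : e ≤ m) (hm : 1 ≤ m) : Function.Surjective (quotCoordHom hϖ hem) := by
  intro y
  obtain ⟨z, hz⟩ := Ideal.Quotient.mk_surjective (Multiplicative.toAdd y)
  refine ⟨⟨oneAddUnit ϖ m hm z, oneAddUnit_mem m hm z⟩, ?_⟩
  rw [quotCoordHom_apply]
  have : quotCoord ϖ m ⟨oneAddUnit ϖ m hm z, oneAddUnit_mem m hm z⟩ = z :=
    quotCoord_unique hϖ (by simp)
  rw [this, hz]
  rfl

/-- `[1 + ϖ^m A : 1 + ϖ^(m+e) A] = |A ⧸ ϖ^e|` for `1 ≤ m`, `e ≤ m`. -/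
theorem relIndex_congrUnits [IsAdicComplete (Ideal.span {ϖ}) A] (hϖ : ϖ ∈ nonZeroDivisors A)
    {m e : ℕ} (hem : e ≤ m) (hm : 1 ≤ m) :
    (congrUnits ϖ (m + e)).relIndex (congrUnits ϖ m) = Nat.card (A ⧸ Ideal.span {ϖ ^ e}) := by
  rw [Subgroup.relIndex, ← quotCoordHom_ker hϖ hem, Subgroup.index_ker,
    MonoidHom.range_eq_top.2 (quotCoordHom_surjective hϖ hem hm)]
  rw [Nat.card_congr (Subgroup.topEquiv.toEquiv)]
  exact Nat.card_congr Multiplicative.toAdd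

end RelIndex

section Final

variable {ϖ}

/-- **Local power index.**  `A` complete with respect to the non-zero-divisor `ϖ`, `A ⧸ (ϖ)` finite,
`n = u ϖ ^ e` with `u` a unit.  Then `[Aˣ : (Aˣ)^n] = |A ⧸ (n)| · |μ_n(A)|`, and both factors are
non-zero (i.e. finite). -/
theorem index_pow_units [IsAdicComplete (Ideal.span {ϖ}) A] [Finite (A ⧸ Ideal.span {ϖ})]
    (hϖ : ϖ ∈ nonZeroDivisors A) {n e : ℕ} {u : Aˣ} (hn : (n : A) = u * ϖ ^ e) :
    (powMonoidHom n : Aˣ →* Aˣ).range.index =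
        Nat.card (A ⧸ Ideal.span {(n : A)}) * Nat.card (powMonoidHom n : Aˣ →* Aˣ).ker ∧
      Nat.card (A ⧸ Ideal.span {(n : A)}) ≠ 0 ∧
      Nat.card (powMonoidHom n : Aˣ →* Aˣ).ker ≠ 0 := by
  have hspan : Ideal.span {(n : A)} = Ideal.span {ϖ ^ e} := by
    rw [hn, Ideal.span_singleton_mul_left_unit u.isUnit]
  have hfin : Finite (A ⧸ Ideal.span {ϖ ^ e}) := by
    rw [← Ideal.span_singleton_pow]
    exact Ideal.finite_quotient_pow ⟨{ϖ}, by simp⟩ e
  obtain ⟨h1, h2⟩ := index_range_eq (powMonoidHom n : Aˣ →* Aˣ) (congrUnits ϖ (e + 1))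
    (congrUnits_index_ne_zero ϖ (e + 1)) (pow_injOn_congrUnits hϖ hn)
    (by rw [map_pow_congrUnits hn]; exact congrUnits_anti ϖ (by omega))
  rw [map_pow_congrUnits hn, relIndex_congrUnits hϖ (by omega) (by omega)] at h1
  rw [hspan]
  exact ⟨h1, Nat.card_pos.ne', h2⟩

/-- the kernel of `x ↦ x ^ n` on units is `rootsOfUnity n A`. -/
lemma ker_powMonoidHom_eq_rootsOfUnity (n : ℕ) :
    (powMonoidHom n : Aˣ →* Aˣ).ker = rootsOfUnity n A := by
  ext x
  rw [MonoidHom.mem_ker, powMonoidHom_apply, mem_rootsOfUnity]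

/-- `index_pow_units` in terms of `rootsOfUnity`. -/
theorem index_pow_units' [IsAdicComplete (Ideal.span {ϖ}) A] [Finite (A ⧸ Ideal.span {ϖ})]
    (hϖ : ϖ ∈ nonZeroDivisors A) {n e : ℕ} {u : Aˣ} (hn : (n : A) = u * ϖ ^ e) :
    (powMonoidHom n : Aˣ →* Aˣ).range.index =
        Nat.card (A ⧸ Ideal.span {(n : A)}) * Nat.card (rootsOfUnity n A) := by
  rw [← ker_powMonoidHom_eq_rootsOfUnity]
  exact (index_pow_units hϖ hn).1

end Final

end Fermat.Agent.S55.H663
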