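import Fermat.Agent.S55.H663.PowIndex

/-!
# Local power index for complete discrete valuation rings

`A` a discrete valuation ring, complete for the `𝔪`-adic topology, with finite residue field,
`n : ℕ` non-zero in `A`.  Then `[Aˣ : (Aˣ)^n] = |A ⧸ (n)| · |μ_n(A)|` (all finite).
-/

namespace Fermat.Agent.S55.H663

open IsLocalRing

variable (A : Type*) [CommRing A] [IsDomain A] [IsDiscreteValuationRing A]
  [IsAdicComplete (maximalIdeal A) A] [Finite (ResidueField A)]

theorem index_pow_units_dvr {n : ℕ} (hn : (n : A) ≠ 0) :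
    (powMonoidHom n : Aˣ →* Aˣ).range.index =
        Nat.card (A ⧸ Ideal.span {(n : A)}) * Nat.card (rootsOfUnity n A) ∧
      Nat.card (A ⧸ Ideal.span {(n : A)}) ≠ 0 ∧ Nat.card (rootsOfUnity n A) ≠ 0 := by
  obtain ⟨ϖ, hϖ⟩ := IsDiscreteValuationRing.exists_irreducible A
  have hmax : maximalIdeal A = Ideal.span {ϖ} := hϖ.maximalIdeal_eq
  have : IsAdicComplete (Ideal.span {ϖ}) A := hmax ▸ (inferInstance : IsAdicComplete (maximalIdeal A) A)
  have : Finite (A ⧸ Ideal.span {ϖ}) := hmax ▸ (inferInstance : Finite (ResidueField A))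
  obtain ⟨e, u, hu⟩ := IsDiscreteValuationRing.eq_unit_mul_pow_irreducible hn hϖ
  have hnz : ϖ ∈ nonZeroDivisors A := mem_nonZeroDivisors_of_ne_zero hϖ.ne_zero
  have h := index_pow_units (ϖ := ϖ) hnz hu
  rw [ker_powMonoidHom_eq_rootsOfUnity] at h
  exact h

end Fermat.Agent.S55.H663
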